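/-
Project SS (S34), leaf [NODE] PLAN B (thickness ≤ 2d from the discriminant; the main line is SS/Thick.lean + SS/Node.lean by helper6), file 3/3: the section lemma (helper25).

`R` a noetherian local `O'`-algebra with `𝔪 = (u, v, w)` and residue field `O'/w`, in normal form
`u v = ϖ' · ε` (`ε` a unit, `ϖ' ∈ O'`), `P : R →ₐ[O'] O'` a section through the node
(`P u, P v ∈ wO'`).  Then `ker P = (u - P u, v - P v)` and `ϖ' · ker P ⊆ (u - P u) R`:
after inverting `ϖ'` the horizontal prime of `P` is generated by `u - P u`.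
-/
import Mathlib

set_option autoImplicit false

namespace Fermat.Agent.SS

open Ideal IsLocalRing

/-- Krull: in a noetherian local ring an element lying in `I + 𝔪^i` for all `i` lies in `I`. -/
theorem ssnb_krull {R : Type*} [CommRing R] [IsLocalRing R] [IsNoetherianRing R] (I : Ideal R)
    (r : R) (h : ∀ i : ℕ, r ∈ I ⊔ maximalIdeal R ^ i) : r ∈ I := by
  have hbot := Ideal.iInf_pow_smul_eq_bot_of_isLocalRing (R := R) (M := R ⧸ I)
    (maximalIdeal R) (Ideal.IsPrime.ne_top inferInstance)
  have hx : (Ideal.Quotient.mk I r : R ⧸ I) ∈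
      (⨅ i : ℕ, maximalIdeal R ^ i • ⊤ : Submodule R (R ⧸ I)) := by
    rw [Submodule.mem_iInf]
    intro i
    obtain ⟨a, ha, b, hb, hab⟩ := Submodule.mem_sup.1 (h i)
    have : (Ideal.Quotient.mk I r : R ⧸ I) = b • (Ideal.Quotient.mk I 1 : R ⧸ I) := by
      rw [← hab, map_add, Ideal.Quotient.eq_zero_iff_mem.2 ha, zero_add, Algebra.smul_def]
      simp
    rw [this]
    exact Submodule.smul_mem_smul hb Submodule.mem_top
  rw [hbot, Submodule.mem_bot] at hx
  exact Ideal.Quotient.eq_zero_iff_mem.1 hx

section Section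

variable {O' R : Type*} [CommRing O'] [CommRing R] [Algebra O' R] [IsLocalRing R]
  [IsNoetherianRing R]

/-- **Kernel of a section through a node.** -/
theorem ssnb_section_ker (w : O') (u v : R)
    (hm : maximalIdeal R = Ideal.span ({u, v, algebraMap O' R w} : Set R))
    (hres : ∀ r : R, ∃ c : O', r - algebraMap O' R c ∈ maximalIdeal R)
    (P : R →ₐ[O'] O') (hu0 : P u ∈ Ideal.span ({w} : Set O'))
    (hv0 : P v ∈ Ideal.span ({w} : Set O')) (r : R) (hr : P r = 0) :
    r ∈ Ideal.span ({u - algebraMap O' R (P u), v - algebraMap O' R (P v)} : Set R) := by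
  set I : Ideal R := Ideal.span ({u - algebraMap O' R (P u), v - algebraMap O' R (P v)} : Set R)
    with hI
  have hwm : algebraMap O' R w ∈ maximalIdeal R := by
    rw [hm]; exact Ideal.subset_span (by simp)
  obtain ⟨u0', hu0'⟩ := Ideal.mem_span_singleton'.1 hu0
  obtain ⟨v0', hv0'⟩ := Ideal.mem_span_singleton'.1 hv0
  have hPI : ∀ x ∈ I, P x = 0 := by
    intro x hx
    refine Submodule.span_induction (p := fun x _ => P x = 0) ?_ ?_ ?_ ?_ hx
    · rintro x (rfl | rfl) <;> simp
    · simp
    · intro x y _ _ hx hy; simp [hx, hy]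
    · intro a x _ hx; simp [hx]
  have key : ∀ i : ℕ, ∀ r : R, P r = 0 → r ∈ I ⊔ maximalIdeal R ^ i := by
    intro i
    induction i with
    | zero => intro r _; simp
    | succ i ih =>
      intro r hr
      obtain ⟨c, hc⟩ := hres r
      rw [hm] at hc
      obtain ⟨α, β, δ, hδ⟩ : ∃ α β δ : R, r - algebraMap O' R c =
          α * u + β * v + δ * algebraMap O' R w := by
        rw [Ideal.mem_span_insert] at hc
        obtain ⟨α, z, hz, hα⟩ := hc
        rw [Ideal.mem_span_insert] at hz
        obtain ⟨β, z', hz', rfl⟩ := hz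
        rw [Ideal.mem_span_singleton'] at hz'
        obtain ⟨δ, rfl⟩ := hz'
        exact ⟨α, β, δ, by rw [hα]; ring⟩
      set i1 : R := α * (u - algebraMap O' R (P u)) + β * (v - algebraMap O' R (P v)) with hi1
      have hi1I : i1 ∈ I :=
        Ideal.add_mem _ (Ideal.mul_mem_left _ _ (Ideal.subset_span (by simp)))
          (Ideal.mul_mem_left _ _ (Ideal.subset_span (by simp)))
      set r1 : R := α * algebraMap O' R u0' + β * algebraMap O' R v0' + δ with hr1
      have hr_eq : r = algebraMap O' R c + i1 + algebraMap O' R w * r1 := by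
        have h1 : algebraMap O' R (P u) = algebraMap O' R u0' * algebraMap O' R w := by
          rw [← map_mul, hu0']
        have h2 : algebraMap O' R (P v) = algebraMap O' R v0' * algebraMap O' R w := by
          rw [← map_mul, hv0']
        have : r = algebraMap O' R c + (α * u + β * v + δ * algebraMap O' R w) := by
          rw [← hδ]; ring
        rw [this, hi1, hr1, h1, h2]; ring
      have hc0 : c + w * P r1 = 0 := by
        have := congrArg P hr_eq
        rw [hr, map_add, map_add, hPI i1 hi1I, map_mul] at this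
        simp only [AlgHom.commutes, Algebra.algebraMap_self_apply, add_zero] at this
        exact this.symm
      set r1' : R := r1 - algebraMap O' R (P r1) with hr1'
      have hPr1' : P r1' = 0 := by simp [hr1']
      have hr_eq' : r = i1 + algebraMap O' R w * r1' := by
        have hc' : algebraMap O' R c = - (algebraMap O' R w * algebraMap O' R (P r1)) := by
          rw [← map_mul, ← map_neg]; congr 1
          exact eq_neg_of_add_eq_zero_left hc0
        rw [hr_eq, hc', hr1']; ring
      obtain ⟨a, ha, b, hb, hab⟩ := Submodule.mem_sup.1 (ih r1' hPr1')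
      rw [hr_eq', ← hab, mul_add]
      refine Submodule.mem_sup.2 ⟨i1 + algebraMap O' R w * a, ?_, algebraMap O' R w * b, ?_, by ring⟩
      · exact Ideal.add_mem _ hi1I (Ideal.mul_mem_left _ _ ha)
      · rw [pow_succ']
        exact Ideal.mul_mem_mul hwm hb
  exact ssnb_krull I r fun i => key i r hr

/-- **The section lemma.** In normal form `u v = ϖ' ε` the prime of a section `P` through the node
is generated, after inverting `ϖ'`, by `u - P u`. -/
theorem ssnb_section (w : O') (u v ε : R) (ϖ' : O') (hε : IsUnit ε)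
    (huv : u * v = algebraMap O' R ϖ' * ε)
    (hm : maximalIdeal R = Ideal.span ({u, v, algebraMap O' R w} : Set R))
    (hres : ∀ r : R, ∃ c : O', r - algebraMap O' R c ∈ maximalIdeal R)
    (P : R →ₐ[O'] O') (hu0 : P u ∈ Ideal.span ({w} : Set O'))
    (hv0 : P v ∈ Ideal.span ({w} : Set O')) (r : R) (hr : P r = 0) :
    ∃ c : R, algebraMap O' R ϖ' * r = c * (u - algebraMap O' R (P u)) := by
  have hwm : algebraMap O' R w ∈ maximalIdeal R := by
    rw [hm]; exact Ideal.subset_span (by simp)
  have hker := ssnb_section_ker w u v hm hres P hu0 hv0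
  set u0 : R := algebraMap O' R (P u) with hu0def
  set v0 : R := algebraMap O' R (P v) with hv0def
  -- `P ε` is a unit of `O'`
  have hPε : IsUnit (P ε) := hε.map P
  obtain ⟨e', he'⟩ := hPε.exists_left_inv
  -- `u0 v0 = ϖ' P ε`
  have hprod : P u * P v = ϖ' * P ε := by
    have := congrArg P huv
    simp at this
    exact this
  -- `ε - P ε ∈ ker P`
  have hεker : P (ε - algebraMap O' R (P ε)) = 0 := by simp
  obtain ⟨α, β, hαβ⟩ : ∃ α β : R, ε - algebraMap O' R (P ε) = α * (u - u0) + β * (v - v0) := by
    have := hker _ hεker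
    rw [Ideal.mem_span_pair] at this
    obtain ⟨a, b, hab⟩ := this
    exact ⟨a, b, hab.symm⟩
  -- key identity
  have hv0m : v0 ∈ maximalIdeal R := by
    obtain ⟨v0', hv0'⟩ := Ideal.mem_span_singleton'.1 hv0
    rw [hv0def, ← hv0', map_mul]
    exact Ideal.mul_mem_left _ _ hwm
  have hunit : IsUnit (1 - v0 * algebraMap O' R e' * β) := by
    have : v0 * algebraMap O' R e' * β ∈ maximalIdeal R := by
      rw [mul_assoc]; exact Ideal.mul_mem_right _ _ hv0m
    by_contra hnu
    have h1 : (1 - v0 * algebraMap O' R e' * β) ∈ maximalIdeal R :=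
      (IsLocalRing.mem_maximalIdeal _).2 hnu
    have : (1 : R) ∈ maximalIdeal R := by
      have := Ideal.add_mem _ h1 this
      simp at this
    exact (Ideal.ne_top_iff_one _).1 (Ideal.IsPrime.ne_top inferInstance) this
  obtain ⟨η, hη⟩ := hunit.exists_left_inv
  have hu0v0 : u0 * v0 = algebraMap O' R ϖ' * algebraMap O' R (P ε) := by
    have : u0 * v0 = algebraMap O' R (P u * P v) := by rw [map_mul]
    rw [this, hprod, map_mul]
  have hϖ' : algebraMap O' R ϖ' = u0 * v0 * algebraMap O' R e' := by
    rw [hu0v0, mul_assoc, ← map_mul, mul_comm (P ε), he', map_one, mul_one]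
  -- `u0 (v - v0) ∈ (u - u0)`
  have hmain : ∃ c : R, u0 * (v - v0) = c * (u - u0) := by
    have h1 : (u - u0) * v + u0 * (v - v0) = algebraMap O' R ϖ' * (ε - algebraMap O' R (P ε)) := by
      have := hu0v0
      have h2 : (u - u0) * v + u0 * (v - v0) = u * v - u0 * v0 := by ring
      rw [h2, huv, this]; ring
    have h3 : u0 * (1 - v0 * algebraMap O' R e' * β) * (v - v0)
        = (algebraMap O' R ϖ' * α - v) * (u - u0) := by
      have : u0 * (v - v0) = algebraMap O' R ϖ' * (α * (u - u0) + β * (v - v0)) - (u - u0) * v := by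
        rw [← hαβ, ← h1]; ring
      calc u0 * (1 - v0 * algebraMap O' R e' * β) * (v - v0)
          = u0 * (v - v0) - u0 * v0 * algebraMap O' R e' * β * (v - v0) := by ring
        _ = u0 * (v - v0) - algebraMap O' R ϖ' * β * (v - v0) := by rw [hϖ']
        _ = (algebraMap O' R ϖ' * α - v) * (u - u0) := by rw [this]; ring
    refine ⟨η * (algebraMap O' R ϖ' * α - v), ?_⟩
    calc u0 * (v - v0) = (η * (1 - v0 * algebraMap O' R e' * β)) * (u0 * (v - v0)) := by
          rw [hη, one_mul]
      _ = η * (u0 * (1 - v0 * algebraMap O' R e' * β) * (v - v0)) := by ring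
      _ = η * (algebraMap O' R ϖ' * α - v) * (u - u0) := by rw [h3]; ring
  obtain ⟨c, hc⟩ := hmain
  obtain ⟨a, b, hab⟩ := Ideal.mem_span_pair.1 (hker r hr)
  refine ⟨algebraMap O' R ϖ' * a + b * (v0 * algebraMap O' R e') * c, ?_⟩
  rw [← hab]
  calc algebraMap O' R ϖ' * (a * (u - u0) + b * (v - v0))
      = algebraMap O' R ϖ' * a * (u - u0) + b * (algebraMap O' R ϖ' * (v - v0)) := by ring
    _ = algebraMap O' R ϖ' * a * (u - u0) + b * (v0 * algebraMap O' R e' * (u0 * (v - v0))) := by
        rw [hϖ']; ring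
    _ = (algebraMap O' R ϖ' * a + b * (v0 * algebraMap O' R e') * c) * (u - u0) := by
        rw [hc]; ring

end Section

end Fermat.Agent.SS
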