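/-
Project SS (S34), leaf [NODE] PLAN B (thickness ≤ 2d from the discriminant; the main line is SS/Thick.lean + SS/Node.lean by helper6), file 1/3: the trace lemma (helper25).

`ssnb_trace_sq` : over an integrally closed domain, a matrix with `M² = ϖ^J • Y` has
`ϖ^J ∣ (tr M)²` (every eigenvalue `ρ` has `ρ²/ϖ^J` integral, hence so has every `ρᵢρⱼ/ϖ^J`).
`ssnb_dual_of_discr` : Cramer: if the discriminant of a basis divides `ϖd`, every functional times
`ϖd` is a trace functional `Tr(z · -)`.
-/
import Mathlib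

set_option autoImplicit false

namespace Fermat.Agent.SS

open Polynomial Matrix

theorem ssnb_isIntegral_mul_sum {A L : Type*} [CommRing A] [CommRing L] [Algebra A L]
    (c a : L) (s : Multiset L) (h : ∀ b ∈ s, IsIntegral A (a * b * c)) :
    IsIntegral A (a * s.sum * c) := by
  induction s using Multiset.induction_on with
  | empty => simpa using isIntegral_zero
  | cons b s ihs =>
    have e : a * (b ::ₘ s).sum * c = a * b * c + a * s.sum * c := by
      rw [Multiset.sum_cons]; ring
    rw [e]
    exact IsIntegral.add (h b (Multiset.mem_cons_self b s))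
      (ihs fun b' hb' => h b' (Multiset.mem_cons_of_mem hb'))

/-- Sums of pairwise products: if all `a * b * c` (`a ∈ t`, `b ∈ s`) are integral, so is
`t.sum * s.sum * c`. -/
theorem ssnb_isIntegral_sum_mul {A L : Type*} [CommRing A] [CommRing L] [Algebra A L]
    (c : L) (t s : Multiset L) (h : ∀ a ∈ t, ∀ b ∈ s, IsIntegral A (a * b * c)) :
    IsIntegral A (t.sum * s.sum * c) := by
  induction t using Multiset.induction_on with
  | empty => simpa using isIntegral_zero
  | cons a t iht =>
    have e : (a ::ₘ t).sum * s.sum * c = a * s.sum * c + t.sum * s.sum * c := by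
      rw [Multiset.sum_cons]; ring
    rw [e]
    exact IsIntegral.add (ssnb_isIntegral_mul_sum c a s (h a (Multiset.mem_cons_self a t)))
      (iht fun a' ha' b' hb' => h a' (Multiset.mem_cons_of_mem ha') b' hb')

/-- **Trace lemma.** Over an integrally closed domain, `M² = ϖ^J Y` forces `ϖ^J ∣ (tr M)²`. -/
theorem ssnb_trace_sq {A : Type*} [CommRing A] [IsDomain A] [IsIntegrallyClosed A]
    {ι : Type*} [Fintype ι] [DecidableEq ι] (ϖ : A) (J : ℕ) (M Y : Matrix ι ι A)
    (h : M * M = ϖ ^ J • Y) : ϖ ^ J ∣ M.trace ^ 2 := by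
  by_cases hϖ : ϖ ^ J = 0
  · -- then `M` is nilpotent and its trace vanishes
    have hnil : IsNilpotent M := ⟨2, by rw [pow_two, h, hϖ, zero_smul]⟩
    have := (Matrix.isNilpotent_trace_of_isNilpotent hnil).eq_zero
    rw [this, hϖ]; simp
  · let K := FractionRing A
    let L := AlgebraicClosure K
    let φ : A →+* L := algebraMap A L
    have hφinj : Function.Injective φ := by
      have : (algebraMap A L) = (algebraMap K L).comp (algebraMap A K) :=
        IsScalarTower.algebraMap_eq A K L
      show Function.Injective (algebraMap A L)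
      rw [this]
      exact (algebraMap K L).injective.comp (IsFractionRing.injective A K)
    set ML : Matrix ι ι L := M.map φ with hML
    set YL : Matrix ι ι L := Y.map φ with hYL
    have hc : φ (ϖ ^ J) ≠ 0 := fun h0 => hϖ (hφinj (by rw [h0, map_zero]))
    have hsq : ML * ML = φ (ϖ ^ J) • YL := by
      rw [hML, hYL, ← Matrix.map_mul, h]
      ext i j; simp [Matrix.map_apply, smul_eq_mul]
    -- eigenvalues
    have hroot : ∀ ρ ∈ ML.charpoly.roots, IsIntegral A (ρ * ρ * (φ (ϖ ^ J))⁻¹) := by
      intro ρ hρ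
      have hρ' : IsRoot ML.charpoly ρ := (Polynomial.mem_roots'.1 hρ).2
      have hspec : ρ ∈ spectrum L ML := Matrix.mem_spectrum_iff_isRoot_charpoly.2 hρ'
      have hspec2 : ρ ^ 2 ∈ spectrum L (ML ^ 2) := spectrum.pow_mem_pow ML 2 hspec
      rw [pow_two ML, hsq] at hspec2
      -- `ρ²/c ∈ σ(YL)`
      have hu : IsUnit (φ (ϖ ^ J)) := isUnit_iff_ne_zero.2 hc
      have hmem : (φ (ϖ ^ J))⁻¹ * ρ ^ 2 ∈ spectrum L YL := by
        have h1 := spectrum.smul_mem_smul_iff (a := YL) (s := (φ (ϖ ^ J))⁻¹ * ρ ^ 2)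
          (r := hu.unit)
        rw [← h1]
        have e1 : hu.unit • ((φ (ϖ ^ J))⁻¹ * ρ ^ 2) = ρ ^ 2 := by
          rw [Units.smul_def, IsUnit.unit_spec, smul_eq_mul, ← mul_assoc, mul_inv_cancel₀ hc,
            one_mul]
        have e2 : hu.unit • YL = φ (ϖ ^ J) • YL := by
          rw [Units.smul_def, IsUnit.unit_spec]
        rw [e1, e2]
        exact hspec2
      have hrootY : IsRoot YL.charpoly ((φ (ϖ ^ J))⁻¹ * ρ ^ 2) :=
        Matrix.mem_spectrum_iff_isRoot_charpoly.1 hmem
      have hint : IsIntegral A ((φ (ϖ ^ J))⁻¹ * ρ ^ 2) := by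
        refine ⟨Y.charpoly, Matrix.charpoly_monic Y, ?_⟩
        have : YL.charpoly = Y.charpoly.map φ := by
          rw [hYL, Matrix.charpoly_map]
        rw [this, IsRoot.def, Polynomial.eval_map] at hrootY
        exact hrootY
      have e : ρ * ρ * (φ (ϖ ^ J))⁻¹ = (φ (ϖ ^ J))⁻¹ * ρ ^ 2 := by ring
      rw [e]; exact hint
    -- pairwise products
    have hpair : ∀ a ∈ ML.charpoly.roots, ∀ b ∈ ML.charpoly.roots,
        IsIntegral A (a * b * (φ (ϖ ^ J))⁻¹) := by
      intro a ha b hb
      have h2 : IsIntegral A ((a * b * (φ (ϖ ^ J))⁻¹) ^ 2) := by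
        have e : (a * b * (φ (ϖ ^ J))⁻¹) ^ 2
            = (a * a * (φ (ϖ ^ J))⁻¹) * (b * b * (φ (ϖ ^ J))⁻¹) := by ring
        rw [e]
        exact IsIntegral.mul (hroot a ha) (hroot b hb)
      exact IsIntegral.of_pow (by norm_num) h2
    have htr : ML.trace = ML.charpoly.roots.sum := Matrix.trace_eq_sum_roots_charpoly ML
    have hint : IsIntegral A (ML.trace * ML.trace * (φ (ϖ ^ J))⁻¹) := by
      rw [htr]
      exact ssnb_isIntegral_sum_mul _ _ _ hpair
    -- descend to `K`
    have htrφ : ML.trace = φ M.trace := by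
      rw [hML, Matrix.trace, Matrix.trace, map_sum]
      simp [Matrix.diag, Matrix.map_apply]
    set x : K := algebraMap A K (M.trace ^ 2) / algebraMap A K (ϖ ^ J) with hx
    have hxL : algebraMap K L x = ML.trace * ML.trace * (φ (ϖ ^ J))⁻¹ := by
      rw [hx, map_div₀, htrφ, div_eq_mul_inv]
      have e1 : algebraMap K L (algebraMap A K (M.trace ^ 2)) = φ (M.trace ^ 2) :=
        (IsScalarTower.algebraMap_apply A K L _).symm
      have e2 : algebraMap K L (algebraMap A K (ϖ ^ J)) = φ (ϖ ^ J) :=
        (IsScalarTower.algebraMap_apply A K L _).symm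
      rw [e1, e2, map_pow, pow_two]
    have hxint : IsIntegral A x := by
      rw [← hxL] at hint
      exact (isIntegral_algebraMap_iff (algebraMap K L).injective).1 hint
    obtain ⟨y, hy⟩ := IsIntegrallyClosed.isIntegral_iff.1 hxint
    refine ⟨y, ?_⟩
    apply IsFractionRing.injective A K
    have hcK : algebraMap A K (ϖ ^ J) ≠ 0 := fun h0 =>
      hϖ (IsFractionRing.injective A K (by rw [h0, map_zero]))
    rw [map_mul, hy, hx, mul_div_cancel₀ _ hcK]

/-- From a discriminant dividing `ϖd` to the dual form of the hypothesis of `ssnb_thick_bound`. -/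
theorem ssnb_dual_of_discr {A R : Type*} [CommRing A] [CommRing R] [Algebra A R]
    {ι : Type*} [Fintype ι] [DecidableEq ι] (b : Module.Basis ι A R) (ϖd a : A)
    (h : Algebra.discr A b * a = ϖd) (φ : R →ₗ[A] A) :
    ∃ z : R, ∀ y : R, ϖd * φ y = Algebra.trace A R (z * y) := by
  set G : Matrix ι ι A := Algebra.traceMatrix A b with hG
  have hdet : G.det * a = ϖd := h
  let zc : ι → A := fun i => a * ∑ j, φ (b j) * G.adjugate j i
  refine ⟨∑ i, zc i • b i, fun y => ?_⟩
  -- both sides are linear in `y`
  have hlin : (ϖd • φ : R →ₗ[A] A) =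
      (Algebra.trace A R).comp (LinearMap.mulLeft A (∑ i, zc i • b i)) := by
    apply b.ext
    intro k
    simp only [LinearMap.smul_apply, smul_eq_mul, LinearMap.comp_apply, LinearMap.mulLeft_apply]
    rw [Finset.sum_mul, map_sum]
    have e1 : ∀ i, Algebra.trace A R (zc i • b i * b k) = zc i * G i k := by
      intro i
      rw [smul_mul_assoc, map_smul, smul_eq_mul, hG, Algebra.traceMatrix_apply,
        Algebra.traceForm_apply]
    simp only [e1]
    have e2 : ∑ i, zc i * G i k = a * ∑ j, φ (b j) * (G.adjugate * G) j k := by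
      simp only [zc, Matrix.mul_apply, Finset.mul_sum, Finset.sum_mul]
      rw [Finset.sum_comm]
      refine Finset.sum_congr rfl fun j _ => Finset.sum_congr rfl fun i _ => ?_
      ring
    rw [e2, Matrix.adjugate_mul]
    simp only [Matrix.smul_apply, Matrix.one_apply, smul_eq_mul, mul_ite, mul_one, mul_zero,
      Finset.sum_ite_eq', Finset.mem_univ, if_true]
    rw [← hdet]; ring
  have := LinearMap.congr_fun hlin y
  simpa using this

end Fermat.Agent.SS
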