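/-
Project SS (S34), leaf [NODE] PLAN B (thickness ≤ 2d from the discriminant; the main line is SS/Thick.lean + SS/Node.lean by helper6), file 2/3: thickness bound and normal form at a node (helper25).

Setting: `R` the local ring of the two-component model at a crossing point, `𝔪 = (u, v, ϖ)`,
`P₁ = (v, ϖ)`, `P₂ = (u, ϖ)`, `u v ∈ ϖR`.  `A ⊆ R` the local ring of the good-reduction model one
level down, `𝔪_A = (ϖ, t)`, `R` finite free over `A`.

* `ssnb_thick_bound` : if `ϖ^d · Hom_A(R, A) ⊆ Tr(R · -)` (the discriminant divides `ϖ^d`), then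
  `u' v' ∈ ϖ^J R` with `u' ≡ u`, `v' ≡ v (mod ϖ)` forces `J ≤ 2 d`.  (The fibre of `R` over the
  section `t = γ` through the approximate node is non-reduced modulo `ϖ^J`.)
* `ssnb_normal_form` : bounded thickness gives coordinates with `u' v' = ϖ^n · unit` IN `R` ITSELF
  (no completion).
* `ssnb_node_normal_form` : the two combined.
-/
import Fermat.Agent.SS.Node.Trace

set_option autoImplicit false

namespace Fermat.Agent.SS

open Ideal IsLocalRing

/-- Membership in `span {x, y, z}` unfolded. -/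
theorem ssnb_mem_span_triple {R : Type*} [CommRing R] {x y z r : R} :
    r ∈ Ideal.span ({x, y, z} : Set R) ↔ ∃ α β δ : R, r = α * x + β * y + δ * z := by
  constructor
  · intro h
    rw [Ideal.mem_span_insert] at h
    obtain ⟨α, w, hw, rfl⟩ := h
    rw [Ideal.mem_span_insert] at hw
    obtain ⟨β, w', hw', rfl⟩ := hw
    rw [Ideal.mem_span_singleton'] at hw'
    obtain ⟨δ, rfl⟩ := hw'
    exact ⟨α, β, δ, by ring⟩
  · rintro ⟨α, β, δ, rfl⟩
    refine Ideal.add_mem _ (Ideal.add_mem _ ?_ ?_) ?_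
    · exact Ideal.mul_mem_left _ _ (Ideal.subset_span (by simp))
    · exact Ideal.mul_mem_left _ _ (Ideal.subset_span (by simp))
    · exact Ideal.mul_mem_left _ _ (Ideal.subset_span (by simp))

/-- Successive approximation: modulo `(u', v', ϖ^i)` every element is a constant. -/
theorem ssnb_approx {O R : Type*} [CommRing O] [CommRing R] [Algebra O R] (ϖ : O) (u' v' : R)
    (hres : ∀ r : R, ∃ c : O, r - algebraMap O R c ∈
      Ideal.span ({u', v', algebraMap O R ϖ} : Set R)) (i : ℕ) (r : R) :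
    ∃ (γ : O) (α β δ : R), r = algebraMap O R γ + α * u' + β * v' + δ * algebraMap O R ϖ ^ i := by
  induction i with
  | zero => exact ⟨0, 0, 0, r, by simp⟩
  | succ i ih =>
    obtain ⟨γ, α, β, δ, h⟩ := ih
    obtain ⟨c0, hc0⟩ := hres δ
    obtain ⟨α1, β1, δ1, h1⟩ := ssnb_mem_span_triple.1 hc0
    refine ⟨γ + c0 * ϖ ^ i, α + α1 * algebraMap O R ϖ ^ i, β + β1 * algebraMap O R ϖ ^ i, δ1, ?_⟩
    have hδ : δ = algebraMap O R c0 + (α1 * u' + β1 * v' + δ1 * algebraMap O R ϖ) := by
      rw [← h1]; ring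
    rw [h, hδ, map_add, map_mul, map_pow]
    ring

/-- **Thickness bound.** -/
theorem ssnb_thick_bound {O A R : Type*} [CommRing O] [CommRing A] [CommRing R] [Algebra O A]
    [Algebra A R] [Algebra O R] [IsScalarTower O A R] [IsLocalRing A] [IsLocalRing R]
    [Module.Free A R] [Module.Finite A R]
    (ϖ : O) (t : A) (u v : R)
    (hmA : maximalIdeal A = Ideal.span ({algebraMap O A ϖ, t} : Set A))
    (hm : maximalIdeal R = Ideal.span ({u, v, algebraMap O R ϖ} : Set R))
    (hres : ∀ r : R, ∃ c : O, r - algebraMap O R c ∈ maximalIdeal R)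
    (hP1 : (Ideal.span ({v, algebraMap O R ϖ} : Set R)).IsPrime)
    (hu1 : u ∉ Ideal.span ({v, algebraMap O R ϖ} : Set R))
    (a b c : R) (ha : IsUnit a)
    (ht : algebraMap A R t = a * u + b * v + c * algebraMap O R ϖ)
    (htP2 : algebraMap A R t ∉ Ideal.span ({u, algebraMap O R ϖ} : Set R))
    (hsec : ∀ γ : O, γ ∈ Ideal.span ({ϖ} : Set O) →
      IsDomain (A ⧸ Ideal.span ({t - algebraMap O A γ} : Set A)) ∧
      IsIntegrallyClosed (A ⧸ Ideal.span ({t - algebraMap O A γ} : Set A)) ∧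
      algebraMap O A ϖ ∉ Ideal.span ({t - algebraMap O A γ} : Set A))
    (d : ℕ)
    (hdual : ∀ φ : R →ₗ[A] A, ∃ z : R, ∀ y : R,
      algebraMap O A ϖ ^ d * φ y = Algebra.trace A R (z * y))
    (J : ℕ) (u' v' : R) (hu' : u' - u ∈ Ideal.span ({algebraMap O R ϖ} : Set R))
    (hv' : v' - v ∈ Ideal.span ({algebraMap O R ϖ} : Set R))
    (huv' : u' * v' ∈ Ideal.span ({algebraMap O R ϖ ^ J} : Set R)) : J ≤ 2 * d := by
  classical
  by_contra hJ
  rw [not_le] at hJ
  obtain ⟨J', rfl⟩ : ∃ J', J = J' + 1 := ⟨J - 1, by omega⟩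
  set p : R := algebraMap O R ϖ with hp
  have hpA : algebraMap A R (algebraMap O A ϖ) = p := (IsScalarTower.algebraMap_apply O A R ϖ).symm
  have hpm : p ∈ maximalIdeal R := by rw [hm]; exact Ideal.subset_span (by simp)
  obtain ⟨eu, heu⟩ := Ideal.mem_span_singleton'.1 hu'
  obtain ⟨ev, hev⟩ := Ideal.mem_span_singleton'.1 hv'
  obtain ⟨W, hW⟩ := Ideal.mem_span_singleton'.1 huv'
  -- the maximal ideal in the new coordinates
  have hres' : ∀ r : R, ∃ c : O, r - algebraMap O R c ∈ Ideal.span ({u', v', p} : Set R) := by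
    intro r
    obtain ⟨c0, hc0⟩ := hres r
    refine ⟨c0, ?_⟩
    rw [hm] at hc0
    obtain ⟨α, β, δ, h⟩ := ssnb_mem_span_triple.1 hc0
    refine ssnb_mem_span_triple.2 ⟨α, β, δ - α * eu - β * ev, ?_⟩
    have h1 : u = u' - eu * p := by rw [heu]; ring
    have h2 : v = v' - ev * p := by rw [hev]; ring
    rw [h, h1, h2]; ring
  -- `t = a u' + b v' + c' ϖ`
  set c' : R := c - a * eu - b * ev with hc'
  have ht' : algebraMap A R t = a * u' + b * v' + c' * p := by
    have h1 : u = u' - eu * p := by rw [heu]; ring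
    have h2 : v = v' - ev * p := by rw [hev]; ring
    rw [ht, hc', h1, h2]; ring
  obtain ⟨γ0, α, β, δ, hγ0⟩ := ssnb_approx ϖ u' v' hres' J' c'
  set γ : O := γ0 * ϖ with hγ
  have hγmem : γ ∈ Ideal.span ({ϖ} : Set O) := Ideal.mem_span_singleton'.2 ⟨γ0, rfl⟩
  set a' : R := a + α * p with ha'
  set b' : R := b + β * p with hb'
  have ha'u : IsUnit a' := by
    by_contra hnu
    have h1 : a' ∈ maximalIdeal R := (IsLocalRing.mem_maximalIdeal _).2 hnu
    have h2 : a ∈ maximalIdeal R := by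
      have : a = a' - α * p := by rw [ha']; ring
      rw [this]
      exact Ideal.sub_mem _ h1 (Ideal.mul_mem_left _ _ hpm)
    exact (IsLocalRing.mem_maximalIdeal _).1 h2 ha
  -- `τ = t - γ = a' u' + b' v' + δ ϖ^J`
  set τA : A := t - algebraMap O A γ with hτA
  have hτ : algebraMap A R τA = a' * u' + b' * v' + δ * p ^ (J' + 1) := by
    rw [hτA, map_sub, ht', ← IsScalarTower.algebraMap_apply O A R, hγ, map_mul, hγ0, ha', hb']
    ring
  set ν : R := a' * u' with hν
  -- `ν² ∈ (τ, ϖ^J)`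
  have hν2 : ∃ r1 r2 : R, ν * ν = algebraMap A R τA * r1 + p ^ (J' + 1) * r2 := by
    refine ⟨ν, -(a' * b' * W) - ν * δ, ?_⟩
    have : ν * ν = ν * (algebraMap A R τA - b' * v' - δ * p ^ (J' + 1)) := by
      rw [hτ]; ring
    rw [this, hν]
    have h3 : a' * u' * (b' * v') = a' * b' * (W * p ^ (J' + 1)) := by rw [hW]; ring
    calc a' * u' * (algebraMap A R τA - b' * v' - δ * p ^ (J' + 1))
        = algebraMap A R τA * (a' * u') - a' * u' * (b' * v') - a' * u' * δ * p ^ (J' + 1) := by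
          ring
      _ = algebraMap A R τA * (a' * u') + p ^ (J' + 1) * (-(a' * b' * W) - a' * u' * δ) := by
          rw [h3]; ring
  -- `ν ∉ 𝔪_A R`
  have hνprim : ν ∉ Ideal.span ({p, algebraMap A R t} : Set R) := by
    intro hmem
    obtain ⟨x, y, hxy⟩ := Ideal.mem_span_pair.1 hmem
    -- modulo `P1`
    have hP1p : p ∈ Ideal.span ({v, p} : Set R) := Ideal.subset_span (by simp)
    have hP1v : v ∈ Ideal.span ({v, p} : Set R) := Ideal.subset_span (by simp)
    have h1 : (a' - y * a) * u ∈ Ideal.span ({v, p} : Set R) := by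
      have : (a' - y * a) * u = x * p + y * (b * v + c * p) - a' * eu * p := by
        have e1 : a' * u' = x * p + y * (a * u + b * v + c * p) := by rw [← ht]; exact hxy.symm
        have e2 : u' = u + eu * p := by rw [heu]; ring
        rw [e2] at e1
        linear_combination e1
      rw [this]
      refine Ideal.sub_mem _ (Ideal.add_mem _ (Ideal.mul_mem_left _ _ hP1p)
        (Ideal.mul_mem_left _ _ (Ideal.add_mem _ (Ideal.mul_mem_left _ _ hP1v)
          (Ideal.mul_mem_left _ _ hP1p)))) (Ideal.mul_mem_left _ _ hP1p)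
    have h2 : a' - y * a ∈ Ideal.span ({v, p} : Set R) := (hP1.mem_or_mem h1).resolve_right hu1
    have hP1le : Ideal.span ({v, p} : Set R) ≤ maximalIdeal R :=
      IsLocalRing.le_maximalIdeal hP1.ne_top
    have hyu : IsUnit y := by
      by_contra hnu
      have hy : y ∈ maximalIdeal R := (IsLocalRing.mem_maximalIdeal _).2 hnu
      have : a' ∈ maximalIdeal R := by
        have e : a' = (a' - y * a) + y * a := by ring
        rw [e]
        exact Ideal.add_mem _ (hP1le h2) (Ideal.mul_mem_right _ _ hy)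
      exact (IsLocalRing.mem_maximalIdeal _).1 this ha'u
    -- modulo `P2`
    have hP2p : p ∈ Ideal.span ({u, p} : Set R) := Ideal.subset_span (by simp)
    have hP2u : u ∈ Ideal.span ({u, p} : Set R) := Ideal.subset_span (by simp)
    have h3 : y * algebraMap A R t ∈ Ideal.span ({u, p} : Set R) := by
      have : y * algebraMap A R t = a' * u + (a' * eu - x) * p := by
        have e2 : u' = u + eu * p := by rw [heu]; ring
        have e1 : x * p + y * algebraMap A R t = a' * u' := hxy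
        rw [e2] at e1
        linear_combination e1
      rw [this]
      exact Ideal.add_mem _ (Ideal.mul_mem_left _ _ hP2u) (Ideal.mul_mem_left _ _ hP2p)
    obtain ⟨y', hy'⟩ := hyu.exists_left_inv
    apply htP2
    have : algebraMap A R t = y' * (y * algebraMap A R t) := by
      rw [← mul_assoc, hy', one_mul]
    rw [this]
    exact Ideal.mul_mem_left _ _ h3
  -- a functional with `φ ν = 1`
  let bs := Module.Free.chooseBasis A R
  have hcoord : ∃ i, IsUnit (bs.repr ν i) := by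
    by_contra hno
    rw [not_exists] at hno
    apply hνprim
    have hmem : ∀ i, bs.repr ν i ∈ maximalIdeal A := fun i =>
      (IsLocalRing.mem_maximalIdeal _).2 (hno i)
    have hrep : ν = ∑ i, bs.repr ν i • bs i := (bs.sum_repr ν).symm
    rw [hrep]
    refine Ideal.sum_mem _ fun i _ => ?_
    have hi := hmem i
    rw [hmA] at hi
    obtain ⟨x, y, hxy⟩ := Ideal.mem_span_pair.1 hi
    rw [← hxy, Algebra.smul_def, map_add, map_mul, map_mul, hpA]
    have e : (algebraMap A R x * p + algebraMap A R y * algebraMap A R t) * bs i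
        = (algebraMap A R x * bs i) * p + (algebraMap A R y * bs i) * algebraMap A R t := by ring
    rw [e]
    exact Ideal.add_mem _ (Ideal.mul_mem_left _ _ (Ideal.subset_span (by simp)))
      (Ideal.mul_mem_left _ _ (Ideal.subset_span (by simp)))
  obtain ⟨i0, hi0⟩ := hcoord
  obtain ⟨e0, he0⟩ := hi0.exists_left_inv
  let φ : R →ₗ[A] A := e0 • bs.coord i0
  have hφν : φ ν = 1 := by
    show (e0 • bs.coord i0) ν = 1
    rw [LinearMap.smul_apply, Module.Basis.coord_apply, smul_eq_mul, he0]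
  obtain ⟨z, hz⟩ := hdual φ
  have htr : algebraMap O A ϖ ^ d = Algebra.trace A R (z * ν) := by
    have := hz ν
    rw [hφν, mul_one] at this
    exact this
  -- matrices
  obtain ⟨r1, r2, hr12⟩ := hν2
  let M : Matrix _ _ A := Algebra.leftMulMatrix bs (z * ν)
  have hMtr : M.trace = algebraMap O A ϖ ^ d := by
    rw [htr, Algebra.trace_eq_matrix_trace bs]
  have hMM : M * M = τA • Algebra.leftMulMatrix bs (z * z * r1)
      + algebraMap O A ϖ ^ (J' + 1) • Algebra.leftMulMatrix bs (z * z * r2) := by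
    show Algebra.leftMulMatrix bs (z * ν) * Algebra.leftMulMatrix bs (z * ν) = _
    rw [← map_mul, ← map_smul, ← map_smul, ← map_add]
    congr 1
    rw [Algebra.smul_def, Algebra.smul_def, map_pow, hpA]
    have : z * ν * (z * ν) = z * z * (ν * ν) := by ring
    rw [this, hr12]; ring
  -- pass to the quotient
  obtain ⟨hdom, hic, hne⟩ := hsec γ hγmem
  have := hdom
  have := hic
  let π := Ideal.Quotient.mk (Ideal.span ({t - algebraMap O A γ} : Set A))
  have hπτ : π τA = 0 := Ideal.Quotient.eq_zero_iff_mem.2 (Ideal.subset_span (by simp [hτA]))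
  have hπϖ : π (algebraMap O A ϖ) ≠ 0 := fun h0 => hne (Ideal.Quotient.eq_zero_iff_mem.1 h0)
  have hMM' : M.map π * M.map π = π (algebraMap O A ϖ) ^ (J' + 1) •
      (Algebra.leftMulMatrix bs (z * z * r2)).map π := by
    rw [← Matrix.map_mul, hMM]
    ext i j
    simp only [Matrix.map_apply, Matrix.add_apply, Matrix.smul_apply, smul_eq_mul, map_add,
      map_mul, map_pow, hπτ, zero_mul, zero_add]
  have hdvd := ssnb_trace_sq (π (algebraMap O A ϖ)) (J' + 1) (M.map π) _ hMM'
  have htrπ : (M.map π).trace = π (algebraMap O A ϖ) ^ d := by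
    have : (M.map π).trace = π M.trace := by
      rw [Matrix.trace, Matrix.trace, map_sum]
      simp [Matrix.diag, Matrix.map_apply]
    rw [this, hMtr, map_pow]
  rw [htrπ, ← pow_mul] at hdvd
  -- `ϖ^(J'+1) ∣ ϖ^(2d)` with `2d < J'+1` forces `ϖ` to be a unit of the quotient
  obtain ⟨k, hk⟩ : ∃ k, J' + 1 = d * 2 + (k + 1) := ⟨J' + 1 - d * 2 - 1, by omega⟩
  rw [hk, pow_add] at hdvd
  obtain ⟨q, hq⟩ := hdvd
  have hpow : π (algebraMap O A ϖ) ^ (d * 2) ≠ 0 := pow_ne_zero _ hπϖ
  have h1 : π (algebraMap O A ϖ) ^ (k + 1) * q = 1 := by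
    apply mul_left_cancel₀ hpow
    rw [mul_one, ← mul_assoc, ← hq]
  -- contradiction: `ϖ` lies in the maximal ideal of `A` and `t - γ` too
  have hϖmA : algebraMap O A ϖ ∈ maximalIdeal A := by
    rw [hmA]; exact Ideal.subset_span (by simp)
  have htmA : t ∈ maximalIdeal A := by
    rw [hmA]; exact Ideal.subset_span (by simp)
  have hτmA : τA ∈ maximalIdeal A := by
    rw [hτA, hγ, map_mul]
    exact Ideal.sub_mem _ htmA (Ideal.mul_mem_left _ _ hϖmA)
  obtain ⟨q', rfl⟩ := Ideal.Quotient.mk_surjective q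
  have h2 : algebraMap O A ϖ ^ (k + 1) * q' - 1 ∈ Ideal.span ({t - algebraMap O A γ} : Set A) := by
    have e : π (algebraMap O A ϖ ^ (k + 1) * q' - 1)
        = π (algebraMap O A ϖ) ^ (k + 1) * π q' - 1 := by
      simp only [map_sub, map_mul, map_pow, map_one]
    exact Ideal.Quotient.eq_zero_iff_mem.1 (by rw [e, h1, sub_self])
  have h3 : algebraMap O A ϖ ^ (k + 1) * q' - 1 ∈ maximalIdeal A := by
    have hle : Ideal.span ({t - algebraMap O A γ} : Set A) ≤ maximalIdeal A := by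
      rw [Ideal.span_le]
      rintro x (rfl)
      exact hτmA
    exact hle h2
  have h4 : (1 : A) ∈ maximalIdeal A := by
    have h5 : algebraMap O A ϖ ^ (k + 1) * q' ∈ maximalIdeal A :=
      Ideal.mul_mem_right _ _ (Ideal.pow_mem_of_mem _ hϖmA _ (Nat.succ_pos k))
    have := Ideal.sub_mem _ h5 h3
    rwa [sub_sub_cancel] at this
  exact (Ideal.ne_top_iff_one _).1 (Ideal.IsPrime.ne_top inferInstance) h4

/-- One improvement step: if `u' v' = ϖ^J W` with `W` in the maximal ideal `(u', v', ϖ)`, the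
coordinates can be corrected so that the product is divisible by `ϖ^(J+1)`. -/
theorem ssnb_step {R : Type*} [CommRing R] (ϖ u' v' W : R) (J : ℕ) (hJ : 1 ≤ J)
    (huv : u' * v' = ϖ ^ J * W) (hW : W ∈ Ideal.span ({u', v', ϖ} : Set R)) :
    ∃ u'' v'' : R, u'' - u' ∈ Ideal.span ({ϖ} : Set R) ∧ v'' - v' ∈ Ideal.span ({ϖ} : Set R) ∧
      u'' * v'' ∈ Ideal.span ({ϖ ^ (J + 1)} : Set R) := by
  obtain ⟨α, β, c, hc⟩ : ∃ α β c : R, W = α * u' + β * v' + c * ϖ := by
    rw [Ideal.mem_span_insert] at hW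
    obtain ⟨α, z, hz, rfl⟩ := hW
    rw [Ideal.mem_span_insert] at hz
    obtain ⟨β, z', hz', rfl⟩ := hz
    rw [Ideal.mem_span_singleton'] at hz'
    obtain ⟨c, rfl⟩ := hz'
    exact ⟨α, β, c, by ring⟩
  refine ⟨u' - ϖ ^ J * β, v' - ϖ ^ J * α, ?_, ?_, ?_⟩
  · rw [Ideal.mem_span_singleton']
    obtain ⟨k, rfl⟩ : ∃ k, J = k + 1 := ⟨J - 1, by omega⟩
    exact ⟨-(ϖ ^ k * β), by ring⟩
  · rw [Ideal.mem_span_singleton']
    obtain ⟨k, rfl⟩ : ∃ k, J = k + 1 := ⟨J - 1, by omega⟩
    exact ⟨-(ϖ ^ k * α), by ring⟩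
  · rw [Ideal.mem_span_singleton']
    obtain ⟨k, rfl⟩ : ∃ k, J = k + 1 := ⟨J - 1, by omega⟩
    refine ⟨c + ϖ ^ k * α * β, ?_⟩
    have : (u' - ϖ ^ (k + 1) * β) * (v' - ϖ ^ (k + 1) * α)
        = u' * v' - ϖ ^ (k + 1) * (α * u' + β * v') + ϖ ^ (k + 1) * ϖ ^ (k + 1) * α * β := by ring
    rw [this, huv, hc]
    ring

/-- **Normal form at a node, inside the local ring itself.** If the thickness is bounded, there
are coordinates `u' ≡ u`, `v' ≡ v (mod ϖ)` with `u' v' = ϖ^n · unit`. -/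
theorem ssnb_normal_form {R : Type*} [CommRing R] [IsLocalRing R] (ϖ u v : R)
    (hm : maximalIdeal R = Ideal.span ({u, v, ϖ} : Set R))
    (huv : u * v ∈ Ideal.span ({ϖ} : Set R))
    (hbound : ∃ d : ℕ, ∀ (J : ℕ) (u' v' : R), u' - u ∈ Ideal.span ({ϖ} : Set R) →
      v' - v ∈ Ideal.span ({ϖ} : Set R) → u' * v' ∈ Ideal.span ({ϖ ^ J} : Set R) → J ≤ d) :
    ∃ (u' v' ε : R) (n : ℕ), 1 ≤ n ∧ IsUnit ε ∧ u' - u ∈ Ideal.span ({ϖ} : Set R) ∧
      v' - v ∈ Ideal.span ({ϖ} : Set R) ∧ u' * v' = ϖ ^ n * ε := by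
  classical
  obtain ⟨d, hd⟩ := hbound
  let S : ℕ → Prop := fun J => ∃ u' v' : R, u' - u ∈ Ideal.span ({ϖ} : Set R) ∧
      v' - v ∈ Ideal.span ({ϖ} : Set R) ∧ u' * v' ∈ Ideal.span ({ϖ ^ J} : Set R)
  have hS1 : S 1 := ⟨u, v, by simp, by simp, by simpa using huv⟩
  have hSd : ∀ J, S J → J ≤ d := fun J ⟨u', v', h1, h2, h3⟩ => hd J u' v' h1 h2 h3
  -- maximal element
  obtain ⟨n, hn, hmax⟩ : ∃ n, S n ∧ ∀ J, S J → J ≤ n := by
    have hfin : {J | S J}.Finite := (Set.finite_le_nat d).subset fun J hJ => hSd J hJ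
    have hne : {J | S J}.Nonempty := ⟨1, hS1⟩
    obtain ⟨n, hn, hmax⟩ := Set.exists_max_image _ id hfin hne
    exact ⟨n, hn, fun J hJ => hmax J hJ⟩
  have hn1 : 1 ≤ n := hmax 1 hS1
  obtain ⟨u', v', h1, h2, h3⟩ := hn
  rw [Ideal.mem_span_singleton'] at h3
  obtain ⟨W, hW⟩ := h3
  by_cases hWu : IsUnit W
  · exact ⟨u', v', W, n, hn1, hWu, h1, h2, by rw [← hW]; ring⟩
  · exfalso
    have hWm : W ∈ maximalIdeal R := (IsLocalRing.mem_maximalIdeal W).2 hWu
    have hspan : Ideal.span ({u, v, ϖ} : Set R) = Ideal.span ({u', v', ϖ} : Set R) := by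
      have hϖ : ∀ s : Set R, ϖ ∈ s → ∀ x, x ∈ Ideal.span ({ϖ} : Set R) → x ∈ Ideal.span s :=
        fun s hs x hx => (Ideal.span_mono (Set.singleton_subset_iff.2 hs)) hx
      apply le_antisymm
      · rw [Ideal.span_le]
        rintro x (rfl | rfl | rfl)
        · have : x = u' - (u' - x) := by ring
          rw [this]
          exact Ideal.sub_mem _ (Ideal.subset_span (by simp)) (hϖ _ (by simp) _ h1)
        · have : x = v' - (v' - x) := by ring
          rw [this]
          exact Ideal.sub_mem _ (Ideal.subset_span (by simp)) (hϖ _ (by simp) _ h2)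
        · exact Ideal.subset_span (by simp)
      · rw [Ideal.span_le]
        rintro x (rfl | rfl | rfl)
        · have : x = u + (x - u) := by ring
          rw [this]
          exact Ideal.add_mem _ (Ideal.subset_span (by simp)) (hϖ _ (by simp) _ h1)
        · have : x = v + (x - v) := by ring
          rw [this]
          exact Ideal.add_mem _ (Ideal.subset_span (by simp)) (hϖ _ (by simp) _ h2)
        · exact Ideal.subset_span (by simp)
    rw [hm, hspan] at hWm
    obtain ⟨u'', v'', g1, g2, g3⟩ := ssnb_step ϖ u' v' W n hn1 (by rw [← hW]; ring) hWm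
    have : S (n + 1) := by
      refine ⟨u'', v'', ?_, ?_, g3⟩
      · have : u'' - u = (u'' - u') + (u' - u) := by ring
        rw [this]; exact Ideal.add_mem _ g1 h1
      · have : v'' - v = (v'' - v') + (v' - v) := by ring
        rw [this]; exact Ideal.add_mem _ g2 h2
    have := hmax _ this
    omega

/-- **Normal form at a node from the discriminant bound** (`ssnb_thick_bound` + `ssnb_normal_form`):
there are `u' ≡ u`, `v' ≡ v (mod ϖ)` in `R` with `u' v' = ϖ^n · ε`, `ε` a unit, `1 ≤ n ≤ 2d`. -/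
theorem ssnb_node_normal_form {O A R : Type*} [CommRing O] [CommRing A] [CommRing R] [Algebra O A]
    [Algebra A R] [Algebra O R] [IsScalarTower O A R] [IsLocalRing A] [IsLocalRing R]
    [Module.Free A R] [Module.Finite A R]
    (ϖ : O) (t : A) (u v : R)
    (hmA : maximalIdeal A = Ideal.span ({algebraMap O A ϖ, t} : Set A))
    (hm : maximalIdeal R = Ideal.span ({u, v, algebraMap O R ϖ} : Set R))
    (hres : ∀ r : R, ∃ c : O, r - algebraMap O R c ∈ maximalIdeal R)
    (hP1 : (Ideal.span ({v, algebraMap O R ϖ} : Set R)).IsPrime)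
    (hu1 : u ∉ Ideal.span ({v, algebraMap O R ϖ} : Set R))
    (huv : u * v ∈ Ideal.span ({algebraMap O R ϖ} : Set R))
    (a b c : R) (ha : IsUnit a)
    (ht : algebraMap A R t = a * u + b * v + c * algebraMap O R ϖ)
    (htP2 : algebraMap A R t ∉ Ideal.span ({u, algebraMap O R ϖ} : Set R))
    (hsec : ∀ γ : O, γ ∈ Ideal.span ({ϖ} : Set O) →
      IsDomain (A ⧸ Ideal.span ({t - algebraMap O A γ} : Set A)) ∧
      IsIntegrallyClosed (A ⧸ Ideal.span ({t - algebraMap O A γ} : Set A)) ∧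
      algebraMap O A ϖ ∉ Ideal.span ({t - algebraMap O A γ} : Set A))
    (d : ℕ)
    (hdual : ∀ φ : R →ₗ[A] A, ∃ z : R, ∀ y : R,
      algebraMap O A ϖ ^ d * φ y = Algebra.trace A R (z * y)) :
    ∃ (u' v' ε : R) (n : ℕ), 1 ≤ n ∧ n ≤ 2 * d ∧ IsUnit ε ∧
      u' - u ∈ Ideal.span ({algebraMap O R ϖ} : Set R) ∧
      v' - v ∈ Ideal.span ({algebraMap O R ϖ} : Set R) ∧ u' * v' = algebraMap O R ϖ ^ n * ε := by
  have hb := ssnb_thick_bound ϖ t u v hmA hm hres hP1 hu1 a b c ha ht htP2 hsec d hdual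
  obtain ⟨u', v', ε, n, hn1, hε, h1, h2, h3⟩ :=
    ssnb_normal_form (algebraMap O R ϖ) u v hm huv ⟨2 * d, hb⟩
  refine ⟨u', v', ε, n, hn1, ?_, hε, h1, h2, h3⟩
  exact hb n u' v' h1 h2 (Ideal.mem_span_singleton'.2 ⟨ε, by rw [h3]; ring⟩)

end Fermat.Agent.SS
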